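import Fermat.Agent.Lib.Frobenius.Exists

set_option autoImplicit false

/-!
# Frobenius elements: from primes of the ring of algebraic integers to valuation subrings,
and lifting from a finite normal level

* `exists_valuationSubring_centre_eq` : every prime `Q` of `Zb` containing a prime number is
  the centre of a valuation subring of `Qb`.
* `isFrobeniusAt_of_centre` : an automorphism which is a Frobenius at the centre of `V`
  (stabilises it and acts as `x ↦ x ^ ℓ` modulo it) is a Frobenius at `V` in the Prelude's sense.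
* `exists_frobenius_lift` : a Frobenius of a finite normal level `L` at an unramified prime lifts to
  a Frobenius in the absolute Galois group.
* `exists_isFrobeniusAt_restrict` : the same in the Prelude's language.
-/

namespace Fermat.Agent.FrobExists

open scoped Pointwise
open IsLocalRing

attribute [local instance] isAlgebraic_Qb isAlgClosure_Qb isInvariant_Zb

/-- A prime of the ring of algebraic integers containing a prime number is maximal. -/
theorem isMaximal_of_natCast_mem (ℓ : ℕ) (hℓ : ℓ.Prime) (Q : Ideal Zb) [hQ : Q.IsPrime]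
    (hℓQ : (ℓ : Zb) ∈ Q) : Q.IsMaximal := by
  let P : Ideal ℤ := Q.under ℤ
  have hℓP : (ℓ : ℤ) ∈ P := by
    change (ℓ : ℤ) ∈ Ideal.comap (algebraMap ℤ Zb) Q
    rw [Ideal.mem_comap]
    simpa using hℓQ
  have hP0 : P ≠ ⊥ := by
    intro h
    rw [h, Ideal.mem_bot] at hℓP
    exact hℓ.ne_zero (by exact_mod_cast hℓP)
  have hPmax : P.IsMaximal := Ring.DimensionLEOne.maximalOfPrime hP0 inferInstance
  exact Ideal.isMaximal_of_isIntegral_of_isMaximal_comap Q hPmax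

/-- Every prime of `Zb` containing a prime number is the centre of a valuation subring. -/
theorem exists_valuationSubring_centre_eq (ℓ : ℕ) (hℓ : ℓ.Prime) (Q : Ideal Zb) [hQ : Q.IsPrime]
    (hℓQ : (ℓ : Zb) ∈ Q) : ∃ V : ValuationSubring Qb, centre V = Q := by
  have hQmax := isMaximal_of_natCast_mem ℓ hℓ Q hℓQ
  let A : Subring Qb := Zb.toSubring
  let I : Ideal A := Q
  have hI : I ≠ ⊤ := hQ.ne_top
  obtain ⟨V, -, hV⟩ := Ideal.image_subset_nonunits_valuationSubring I hI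
  refine ⟨V, ?_⟩
  have hle : Q ≤ centre V := by
    intro b hb
    rw [mem_centre_iff]
    exact hV ⟨b, hb, rfl⟩
  exact (hQmax.eq_of_le (centre_isPrime V).ne_top hle).symm

theorem liesOverPrime_of_mem_centre (ℓ : ℕ) (V : ValuationSubring Qb)
    (h : (ℓ : Zb) ∈ centre V) : V.LiesOverPrime ℓ := by
  rw [mem_centre_iff] at h
  exact h

/-- An automorphism which is a Frobenius at the centre of `V` is a Frobenius at `V`. -/
theorem isFrobeniusAt_of_centre (ℓ : ℕ) (V : ValuationSubring Qb) (σ : GQ)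
    (hσQ : σ • centre V = centre V) (hσ : ∀ b : Zb, σ • b - b ^ ℓ ∈ centre V) :
    V.IsFrobeniusAt σ ℓ := by
  have hdec := mem_decompositionSubgroup_of_smul_centre V σ hσQ
  refine ⟨hdec, fun x => ?_⟩
  obtain ⟨a, rfl⟩ := residue_surjective x
  obtain ⟨s, hs, hsu, hsx⟩ := exists_integral_mul V a.1 a.2
  let g : V.decompositionSubgroup ℚ := ⟨σ, hdec⟩
  let sZ : Zb := ⟨s, hs⟩
  let bZ : Zb := ⟨s * a, hsx⟩
  let r : Zb →+* ResidueField V := (residue V).comp (inclV V)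
  have hr : ∀ b : Zb, b ∈ centre V → r b = 0 := fun b hb =>
    (residue_eq_zero_iff _).mpr hb
  have hrσ : ∀ b : Zb, r (σ • b) = r b ^ ℓ := by
    intro b
    have := hr _ (hσ b)
    rwa [map_sub, map_pow, sub_eq_zero] at this
  have hrs : r sZ ≠ 0 := by
    intro h
    have : sZ ∈ centre V := (residue_eq_zero_iff _).mp h
    rw [mem_centre_iff] at this
    exact hsu this
  have e1 : inclV V sZ * a = inclV V bZ := Subtype.ext rfl
  have e2 : inclV V (σ • sZ) * (g • a) = inclV V (σ • bZ) := by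
    apply Subtype.ext
    change σ s * σ a = σ (s * a)
    rw [map_mul]
  have e3 : r (σ • sZ) * residue V (g • a) = r (σ • bZ) := by
    have := congrArg (residue V) e2
    rwa [map_mul] at this
  have e4 : r bZ = r sZ * residue V a := by
    have := congrArg (residue V) e1
    rw [map_mul] at this
    exact this.symm
  rw [hrσ, hrσ, e4, mul_pow] at e3
  have e5 : residue V (g • a) = residue V a ^ ℓ :=
    mul_left_cancel₀ (pow_ne_zero ℓ hrs) e3
  exact e5

/-- The restriction of `σ` to a normal intermediate field, on elements. -/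
theorem coe_restrictNormalHom_apply (L : IntermediateField ℚ Qb) [Normal ℚ L] (σ : GQ) (x : L) :
    ((AlgEquiv.restrictNormalHom L σ x : L) : Qb) = σ (x : Qb) :=
  AlgEquiv.restrictNormal_commutes σ L x

/-- **Lifting a Frobenius from a normal level at an unramified prime.**
`Q` is a prime of the ring of all algebraic integers over `ℓ`; `τ` is an automorphism of the normal
intermediate field `L` which is a Frobenius at `Q ∩ L`, and the inertia group of `Q ∩ L` is trivial.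
Then `τ` is the restriction of a Frobenius at `Q` of the absolute Galois group. -/
theorem exists_frobenius_lift (L : IntermediateField ℚ Qb) [Normal ℚ L]
    (ℓ : ℕ) (hℓ : ℓ.Prime) (Q : Ideal Zb) [hQ : Q.IsPrime] (hℓQ : (ℓ : Zb) ∈ Q)
    (τ : L ≃ₐ[ℚ] L)
    (hτ : ∀ x : L, IsIntegral ℤ (x : Qb) →
      ∃ q : Zb, q ∈ Q ∧ (q : Qb) = ((τ x : L) : Qb) - (x : Qb) ^ ℓ)
    (hunr : ∀ ι : L ≃ₐ[ℚ] L,
      (∀ x : L, IsIntegral ℤ (x : Qb) → ∃ q : Zb, q ∈ Q ∧ (q : Qb) = ((ι x : L) : Qb) - (x : Qb)) →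
        ι = 1) :
    ∃ σ : GQ, σ • Q = Q ∧ (∀ b : Zb, σ • b - b ^ ℓ ∈ Q) ∧ AlgEquiv.restrictNormalHom L σ = τ := by
  obtain ⟨σ₀, hσQ, hσ⟩ := frobMod_exists_h53 ℓ hℓ Q hℓQ
  refine ⟨σ₀, hσQ, hσ, ?_⟩
  set τ₀ : L ≃ₐ[ℚ] L := AlgEquiv.restrictNormalHom L σ₀ with hτ₀
  have hσQ' : σ₀⁻¹ • Q = Q := by
    conv_lhs => rw [← hσQ]
    rw [inv_smul_smul]
  have hι : τ₀⁻¹ * τ = 1 := by
    apply hunr
    intro x hx
    obtain ⟨q, hq, hqx⟩ := hτ x hx
    have h1 := hσ ⟨(x : Qb), hx⟩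
    -- `τ x - σ₀ x ∈ Q`
    have h2 : q - (σ₀ • (⟨(x : Qb), hx⟩ : Zb) - (⟨(x : Qb), hx⟩ : Zb) ^ ℓ) ∈ Q := sub_mem hq h1
    have h3 : σ₀⁻¹ • (q - (σ₀ • (⟨(x : Qb), hx⟩ : Zb) - (⟨(x : Qb), hx⟩ : Zb) ^ ℓ)) ∈ Q := by
      rw [← hσQ']
      exact Ideal.smul_mem_pointwise_smul _ _ _ h2
    refine ⟨_, h3, ?_⟩
    have e1 : ((σ₀⁻¹ • (q - (σ₀ • (⟨(x : Qb), hx⟩ : Zb) - (⟨(x : Qb), hx⟩ : Zb) ^ ℓ)) : Zb) : Qb)
        = σ₀⁻¹ ((q : Qb) - (σ₀ (x : Qb) - (x : Qb) ^ ℓ)) := rfl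
    rw [e1, hqx]
    have e2 : (((τ₀⁻¹ * τ) x : L) : Qb) = σ₀⁻¹ ((τ x : L) : Qb) := by
      have : τ₀⁻¹ = AlgEquiv.restrictNormalHom L σ₀⁻¹ := by
        rw [hτ₀, map_inv]
      rw [AlgEquiv.mul_apply, this, coe_restrictNormalHom_apply]
    rw [e2]
    have e3 : ((τ x : L) : Qb) - (x : Qb) ^ ℓ - (σ₀ (x : Qb) - (x : Qb) ^ ℓ)
        = ((τ x : L) : Qb) - σ₀ (x : Qb) := by ring
    rw [e3, map_sub]
    congr 1
    exact (AlgEquiv.symm_apply_apply σ₀ (x : Qb))
  have : τ = τ₀ := by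
    have h := congrArg (fun z => τ₀ * z) hι
    simpa [mul_assoc] using h
  exact this.symm

/-- **Lifting a Frobenius from a normal level, in the Prelude's language.** -/
theorem exists_isFrobeniusAt_restrict (L : IntermediateField ℚ Qb) [Normal ℚ L]
    (ℓ : ℕ) (hℓ : ℓ.Prime) (Q : Ideal Zb) [hQ : Q.IsPrime] (hℓQ : (ℓ : Zb) ∈ Q)
    (τ : L ≃ₐ[ℚ] L)
    (hτ : ∀ x : L, IsIntegral ℤ (x : Qb) →
      ∃ q : Zb, q ∈ Q ∧ (q : Qb) = ((τ x : L) : Qb) - (x : Qb) ^ ℓ)
    (hunr : ∀ ι : L ≃ₐ[ℚ] L,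
      (∀ x : L, IsIntegral ℤ (x : Qb) → ∃ q : Zb, q ∈ Q ∧ (q : Qb) = ((ι x : L) : Qb) - (x : Qb)) →
        ι = 1) :
    ∃ (A : ValuationSubring (AlgebraicClosure ℚ))
      (σ : AlgebraicClosure ℚ ≃ₐ[ℚ] AlgebraicClosure ℚ),
      A.LiesOverPrime ℓ ∧ A.IsFrobeniusAt σ ℓ ∧ centre A = Q ∧
        AlgEquiv.restrictNormalHom L σ = τ := by
  obtain ⟨σ, hσQ, hσ, hres⟩ := exists_frobenius_lift L ℓ hℓ Q hℓQ τ hτ hunr
  obtain ⟨V, hV⟩ := exists_valuationSubring_centre_eq ℓ hℓ Q hℓQ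
  refine ⟨V, σ, liesOverPrime_of_mem_centre ℓ V (hV ▸ hℓQ), ?_, hV, hres⟩
  exact isFrobeniusAt_of_centre ℓ V σ (hV ▸ hσQ) (fun b => hV ▸ hσ b)

end Fermat.Agent.FrobExists
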