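import Mathlib
import Fermat.Prelude.Def_EllipticCurve_FrobeniusTrace

set_option autoImplicit false

/-!
# Basic setup for Frobenius elements in `Gal(ℚ̄/ℚ)`

The ring `Zb` of all algebraic integers inside `Qb = AlgebraicClosure ℚ`, with the action of
the absolute Galois group `GQ`: the invariants are `ℤ`, and the action is continuous for the
Krull topology on `GQ` and the discrete topology on `Zb`.
-/

namespace Fermat.Agent.FrobExists

open scoped Pointwise
open IsLocalRing

/-- `ℚ̄`. -/
abbrev Qb : Type := AlgebraicClosure ℚ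

/-- The absolute Galois group of `ℚ`. -/
abbrev GQ : Type := Qb ≃ₐ[ℚ] Qb

/-- The ring of all algebraic integers. -/
noncomputable abbrev Zb : Subalgebra ℤ Qb := integralClosure ℤ Qb

theorem isAlgebraic_Qb : Algebra.IsAlgebraic ℚ Qb := AlgebraicClosure.isAlgebraic ℚ

attribute [local instance] isAlgebraic_Qb

theorem isAlgClosure_Qb : IsAlgClosure ℚ Qb := ⟨inferInstance, inferInstance⟩

attribute [local instance] isAlgClosure_Qb

theorem isGalois_Qb : IsGalois ℚ Qb := inferInstance

theorem isInvariant_Zb : Algebra.IsInvariant ℤ Zb GQ := by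
  constructor
  intro b hb
  have h1 : (b : Qb) ∈ Set.range (algebraMap ℚ Qb) := by
    rw [InfiniteGalois.mem_range_algebraMap_iff_fixed]
    intro f
    have := congrArg Subtype.val (hb f)
    exact this
  obtain ⟨r, hr⟩ := h1
  have h2 : IsIntegral ℤ r := by
    have h3 : IsIntegral ℤ (algebraMap ℚ Qb r) := hr ▸ b.2
    exact (isIntegral_algebraMap_iff (FaithfulSMul.algebraMap_injective ℚ Qb)).mp h3
  obtain ⟨n, hn⟩ := IsIntegrallyClosed.algebraMap_eq_of_integral h2
  refine ⟨n, Subtype.ext ?_⟩
  rw [← hr, ← hn]
  simp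

attribute [local instance] isInvariant_Zb

theorem continuousSMul_Zb :
    letI : TopologicalSpace Zb := ⊥
    ContinuousSMul GQ Zb := by
  let _ : TopologicalSpace Zb := ⊥
  have : DiscreteTopology Zb := ⟨rfl⟩
  rw [continuousSMul_iff_stabilizer_isOpen]
  intro b
  have h := stabilizer_isOpen_of_isIntegral (K := ℚ) (L := Qb) (b : Qb)
  have heq : (MulAction.stabilizer GQ b : Set GQ) = (MulAction.stabilizer GQ (b : Qb) : Set GQ) := by
    ext g
    simp only [SetLike.mem_coe, MulAction.mem_stabilizer_iff]
    constructor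
    · intro hg
      exact congrArg Subtype.val hg
    · intro hg
      exact Subtype.ext hg
  rw [heq]
  exact h

end Fermat.Agent.FrobExists
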