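import Fermat.Agent.Lib.Frobenius.Basic

set_option autoImplicit false
set_option linter.style.haveILetI false

/-!
# Existence of a Frobenius element modulo a prime of the ring of all algebraic integers
-/

namespace Fermat.Agent.FrobExists

open scoped Pointwise

attribute [local instance] isAlgebraic_Qb isAlgClosure_Qb isInvariant_Zb

theorem exists_frob_mod (ℓ : ℕ) (hℓ : ℓ.Prime) (Q : Ideal Zb) [hQ : Q.IsPrime]
    (hℓQ : (ℓ : Zb) ∈ Q) :
    ∃ σ : GQ, σ • Q = Q ∧ ∀ b : Zb, σ • b - b ^ ℓ ∈ Q := by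
  classical
  letI : TopologicalSpace Zb := ⊥
  haveI : DiscreteTopology Zb := ⟨rfl⟩
  haveI : ContinuousSMul GQ Zb := continuousSMul_Zb
  haveI : Fact ℓ.Prime := ⟨hℓ⟩
  set P : Ideal ℤ := Q.under ℤ with hP
  haveI hlo : Q.LiesOver P := ⟨rfl⟩
  haveI hPprime : P.IsPrime := Ideal.IsPrime.under ℤ Q
  have hℓP : (ℓ : ℤ) ∈ P := by
    rw [hP, Ideal.under_def, Ideal.mem_comap]
    simpa using hℓQ
  -- characteristic `ℓ`
  haveI hchar : CharP (Zb ⧸ Q) ℓ := by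
    have h0 : ((ℓ : ℕ) : Zb ⧸ Q) = 0 := by
      have : (Ideal.Quotient.mk Q (ℓ : Zb)) = 0 := Ideal.Quotient.eq_zero_iff_mem.mpr hℓQ
      simpa using this
    haveI : Nontrivial (Zb ⧸ Q) := Ideal.Quotient.nontrivial_iff.mpr hQ.ne_top
    exact (CharP.charP_iff_prime_eq_zero hℓ).mpr h0
  -- Frobenius as an algebra endomorphism over `ℤ ⧸ P`
  let Fa : (Zb ⧸ Q) →ₐ[ℤ ⧸ P] (Zb ⧸ Q) :=
    { frobenius (Zb ⧸ Q) ℓ with
      commutes' := by
        intro r
        obtain ⟨n, rfl⟩ := Ideal.Quotient.mk_surjective r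
        have h1 : algebraMap (ℤ ⧸ P) (Zb ⧸ Q) (Ideal.Quotient.mk P n) = ((n : ℤ) : Zb ⧸ Q) := by
          have : Ideal.Quotient.mk P n = ((n : ℤ) : ℤ ⧸ P) := by simp
          rw [this, map_intCast]
        simp only [RingHom.toMonoidHom_eq_coe, OneHom.toFun_eq_coe, MonoidHom.toOneHom_coe,
          MonoidHom.coe_coe]
        rw [h1, map_intCast] }
  -- maximality
  have hPne : P ≠ ⊥ := by
    intro h
    rw [h, Ideal.mem_bot] at hℓP
    exact hℓ.ne_zero (by exact_mod_cast hℓP)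
  haveI hPmax : P.IsMaximal := Ideal.IsPrime.isMaximal hPprime hPne
  haveI hint : Algebra.IsIntegral ℤ Zb := inferInstance
  haveI hQmax : Q.IsMaximal := Ideal.isMaximal_of_isIntegral_of_isMaximal_comap (R := ℤ) Q hPmax
  letI : Field (ℤ ⧸ P) := Ideal.Quotient.field P
  letI : Field (Zb ⧸ Q) := Ideal.Quotient.field Q
  haveI hint' : Algebra.IsIntegral (ℤ ⧸ P) (Zb ⧸ Q) :=
    Ideal.Quotient.algebra_isIntegral_of_liesOver Q P
  haveI halg : Algebra.IsAlgebraic (ℤ ⧸ P) (Zb ⧸ Q) := Algebra.IsIntegral.isAlgebraic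
  haveI htf : Module.IsTorsionFree (ℤ ⧸ P) (Zb ⧸ Q) := DivisionSemiring.to_moduleIsTorsionFree
  have hbij : Function.Bijective Fa := Algebra.IsAlgebraic.algHom_bijective Fa
  let Fe : (Zb ⧸ Q) ≃ₐ[ℤ ⧸ P] (Zb ⧸ Q) := AlgEquiv.ofBijective Fa hbij
  obtain ⟨σ, hσ⟩ := Ideal.Quotient.stabilizerHom_surjective_of_profinite (G := GQ) P Q Fe
  refine ⟨σ.1, σ.2, fun b => ?_⟩
  have h1 := DFunLike.congr_fun hσ (Ideal.Quotient.mk Q b)
  rw [Ideal.Quotient.stabilizerHom_apply] at h1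
  have h2 : Fe (Ideal.Quotient.mk Q b) = Ideal.Quotient.mk Q (b ^ ℓ) := by
    show frobenius (Zb ⧸ Q) ℓ (Ideal.Quotient.mk Q b) = _
    rw [frobenius_def, map_pow]
  rw [h2] at h1
  exact Ideal.Quotient.eq.mp h1

end Fermat.Agent.FrobExists
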